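import Mathlib.RingTheory.IntegralClosure.IntegrallyClosed
import Mathlib.RingTheory.Polynomial.ScaleRoots
import Mathlib.RingTheory.Localization.Away.Basic
import Mathlib.RingTheory.Localization.FractionRing
import Mathlib.RingTheory.Localization.Integral
import Mathlib.RingTheory.Ideal.Operations
import Mathlib.RingTheory.Ideal.BigOperators
import Mathlib.RingTheory.Nilpotent.Lemmas

/-!
# A2 / MODEL, piece M3 (abstract): normality from a reduced special fibre       (helper203)

`C` a domain, `π ∈ C`, `π ≠ 0`.  If `C / π C` is reduced and `C[1/π]` is integrally closed, then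
`C` is integrally closed.  ("No Serre criterion needed": if `x = y / π ^ k` is integral over `C`
with `k ≥ 1` minimal then `ȳ` is nilpotent in `C / π`, so `π ∣ y`.)

* `mem_range_of_isIntegral_of_mul_mem` : the key step — `z ∈ Frac C` integral over `C` with
  `π z ∈ C` lies in `C`.
* `isIntegrallyClosed_of_isRadical_of_away` : the criterion, for any localisation `Cπ` of `C`
  away from `π`.
* `isIntegrallyClosed_of_isRadical_of_localizationAway` : the same for `Localization.Away π`.
-/

set_option autoImplicit false
set_option linter.unusedSectionVars false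
set_option linter.unusedVariables false
set_option linter.style.haveILetI false

namespace Fermat.Agent.A2.H203

open Polynomial

section

variable {C : Type*} [CommRing C] [IsDomain C] {K : Type*} [Field K] [Algebra C K]
  [IsFractionRing C K]

/-- If `c ^ d ∈ (π)` modulo lower terms: a root `c` of a monic polynomial whose non-leading
coefficients are divisible by `π` has a power divisible by `π`. -/
theorem pow_mem_span_of_scaleRoots_root {π : C} {p : C[X]} (hp : p.Monic) {c : C}
    (hc : (p.scaleRoots π).eval c = 0) (hdeg : 0 < p.natDegree) :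
    c ^ p.natDegree ∈ Ideal.span {π} := by
  set I : Ideal C := Ideal.span {π} with hI
  have hmono : (p.scaleRoots π).Monic := (monic_scaleRoots_iff π).mpr hp
  have hnat : (p.scaleRoots π).natDegree = p.natDegree := natDegree_scaleRoots p π
  rw [eval_eq_sum_range, hnat, Finset.sum_range_succ] at hc
  have hlead : (p.scaleRoots π).coeff p.natDegree = 1 := by
    rw [← hnat]; exact hmono.coeff_natDegree
  rw [hlead, one_mul] at hc
  have hsum : ∑ i ∈ Finset.range p.natDegree, (p.scaleRoots π).coeff i * c ^ i ∈ I := by
    refine Ideal.sum_mem _ fun i hi => ?_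
    rw [Finset.mem_range] at hi
    rw [coeff_scaleRoots]
    have h1 : π ^ (p.natDegree - i) ∈ I := by
      have : p.natDegree - i = (p.natDegree - i - 1) + 1 := by omega
      rw [this, pow_succ]
      exact Ideal.mul_mem_left _ _ (Ideal.subset_span rfl)
    exact Ideal.mul_mem_right _ _ (Ideal.mul_mem_left _ _ h1)
  have : c ^ p.natDegree = -∑ i ∈ Finset.range p.natDegree, (p.scaleRoots π).coeff i * c ^ i := by
    rw [eq_neg_iff_add_eq_zero, add_comm]
    exact hc
  rw [this]
  exact I.neg_mem hsum

/-- **Key step.**  If `C / π` is reduced, `z ∈ Frac C` is integral over `C` and `π z ∈ C`, then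
`z ∈ C`. -/
theorem mem_range_of_isIntegral_of_mul_mem {π : C} (hπ : π ≠ 0)
    (hred : (Ideal.span {π}).IsRadical) {z : K} (hz : IsIntegral C z) {c : C}
    (hc : algebraMap C K π * z = algebraMap C K c) : ∃ c' : C, algebraMap C K c' = z := by
  have hinj : Function.Injective (algebraMap C K) := IsFractionRing.injective C K
  obtain ⟨p, hp, hpz⟩ := hz
  have hroot : (p.scaleRoots π).eval c = 0 := by
    apply hinj
    rw [map_zero, ← aeval_algebraMap_apply_eq_algebraMap_eval, ← hc]
    exact scaleRoots_aeval_eq_zero (p := p) (r := π) (a := z) (by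
      rw [aeval_def]; exact hpz)
  have hcmem : c ∈ Ideal.span {π} := by
    by_cases hdeg : p.natDegree = 0
    · -- `p = 1`, impossible unless the ring is trivial
      have h1 : p = 1 := Polynomial.eq_one_of_monic_natDegree_zero hp hdeg
      rw [h1] at hpz
      simp at hpz
    · exact hred ⟨p.natDegree, pow_mem_span_of_scaleRoots_root hp hroot (Nat.pos_of_ne_zero hdeg)⟩
  obtain ⟨c', rfl⟩ := Ideal.mem_span_singleton.mp hcmem
  refine ⟨c', ?_⟩
  have hπK : algebraMap C K π ≠ 0 := (map_ne_zero_iff _ hinj).mpr hπ
  rw [map_mul] at hc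
  exact (mul_left_cancel₀ hπK hc).symm

/-- Iterated key step: `π ^ n * z ∈ C` and `z` integral imply `z ∈ C`. -/
theorem mem_range_of_isIntegral_of_pow_mul_mem {π : C} (hπ : π ≠ 0)
    (hred : (Ideal.span {π}).IsRadical) (n : ℕ) {z : K} (hz : IsIntegral C z) {c : C}
    (hc : algebraMap C K π ^ n * z = algebraMap C K c) : ∃ c' : C, algebraMap C K c' = z := by
  induction n generalizing c with
  | zero => exact ⟨c, by rw [← hc, pow_zero, one_mul]⟩
  | succ n ih =>
    have hz' : IsIntegral C (algebraMap C K π ^ n * z) :=
      (isIntegral_algebraMap.pow n).mul hz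
    have hc' : algebraMap C K π * (algebraMap C K π ^ n * z) = algebraMap C K c := by
      rw [← hc, pow_succ]
      ring
    obtain ⟨c₁, hc₁⟩ := mem_range_of_isIntegral_of_mul_mem hπ hred hz' hc'
    exact ih hc₁.symm

end

section

variable {C : Type*} [CommRing C] [IsDomain C]

/-- **M3 (criterion).**  A domain `C` with `C / π` reduced and `C[1/π]` integrally closed is
integrally closed. -/
theorem isIntegrallyClosed_of_isRadical_of_away {π : C} (hπ : π ≠ 0)
    (hred : (Ideal.span {π}).IsRadical)
    (Cπ : Type*) [CommRing Cπ] [Algebra C Cπ] [IsLocalization.Away π Cπ] [IsDomain Cπ]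
    [IsIntegrallyClosed Cπ] : IsIntegrallyClosed C := by
  let K := FractionRing C
  have hle : Submonoid.powers π ≤ nonZeroDivisors C :=
    Submonoid.powers_le.mpr (mem_nonZeroDivisors_of_ne_zero hπ)
  letI : Algebra Cπ K := (IsLocalization.lift (M := Submonoid.powers π) (S := Cπ)
    (g := algebraMap C K) (fun y => by
      have : (y : C) ∈ nonZeroDivisors C := hle y.2
      exact IsLocalization.map_units K ⟨(y : C), this⟩)).toAlgebra
  haveI : IsScalarTower C Cπ K := IsScalarTower.of_algebraMap_eq fun c => by
    change _ = (IsLocalization.lift _) (algebraMap C Cπ c)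
    rw [IsLocalization.lift_eq]
  haveI : IsFractionRing Cπ K :=
    IsFractionRing.isFractionRing_of_isDomain_of_isLocalization (Submonoid.powers π) Cπ K
  refine (isIntegrallyClosed_iff K).mpr fun {z} hz => ?_
  have hz' : IsIntegral Cπ z := hz.tower_top
  obtain ⟨y, hy⟩ := (isIntegrallyClosed_iff K).mp (inferInstance : IsIntegrallyClosed Cπ) hz'
  obtain ⟨n, c, hnc⟩ := IsLocalization.Away.surj π y
  have hc : algebraMap C K π ^ n * z = algebraMap C K c := by
    rw [← hy, IsScalarTower.algebraMap_apply C Cπ K, IsScalarTower.algebraMap_apply C Cπ K c,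
      ← hnc, map_mul, map_pow]
    ring
  exact mem_range_of_isIntegral_of_pow_mul_mem hπ hred n hz hc

/-- **M3 (criterion)** for `Localization.Away π`. -/
theorem isIntegrallyClosed_of_isRadical_of_localizationAway {π : C} (hπ : π ≠ 0)
    (hred : (Ideal.span {π}).IsRadical)
    (hgen : IsIntegrallyClosed (Localization.Away π)) : IsIntegrallyClosed C := by
  have hle : Submonoid.powers π ≤ nonZeroDivisors C :=
    Submonoid.powers_le.mpr (mem_nonZeroDivisors_of_ne_zero hπ)
  haveI : IsDomain (Localization.Away π) := IsLocalization.isDomain_localization hle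
  exact isIntegrallyClosed_of_isRadical_of_away hπ hred (Localization.Away π)

end

end Fermat.Agent.A2.H203
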